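import Mathlib.FieldTheory.IsAlgClosed.Classification
import Mathlib.FieldTheory.AlgebraicClosure
import Mathlib.FieldTheory.Normal.Basic
import Mathlib.RingTheory.RootsOfUnity.Minpoly
import Mathlib.RingTheory.RootsOfUnity.Complex
import Mathlib.RingTheory.Polynomial.Cyclotomic.Roots
import Mathlib.Analysis.Complex.Polynomial.Basic

/-!
# Automorphisms of `ℂ` acting on roots of unity
-/

set_option autoImplicit false

noncomputable section

namespace Fermat.Agent.DeligneSerre

/-- An automorphism of a subfield extends to an algebraically closed overfield. -/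
theorem exists_ringEquiv_extends {K L : Type*} [Field K] [Field L] [Algebra K L] [IsAlgClosed L]
    (σ : K ≃+* K) : ∃ E : L ≃+* L, ∀ x, E (algebraMap K L x) = algebraMap K L (σ x) := by
  obtain ⟨t, ht⟩ := exists_isTranscendenceBasis K L
  let A := Algebra.adjoin K (Set.range ((↑) : t → L))
  have : IsAlgClosure A L := IsAlgClosed.isAlgClosure_of_transcendence_basis _ ht
  let eA : A ≃+* A := ht.1.aevalEquiv.symm.toRingEquiv.trans
    ((MvPolynomial.mapEquiv t σ).trans ht.1.aevalEquiv.toRingEquiv)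
  refine ⟨IsAlgClosure.equivOfEquiv L L eA, fun x ↦ ?_⟩
  have h := IsAlgClosure.equivOfEquiv_algebraMap L L eA (algebraMap K A x)
  have h2 : eA (algebraMap K A x) = algebraMap K A (σ x) := by
    show ht.1.aevalEquiv (MvPolynomial.mapEquiv t σ (ht.1.aevalEquiv.symm (algebraMap K A x))) = _
    rw [AlgEquiv.commutes, MvPolynomial.algebraMap_eq, MvPolynomial.mapEquiv_apply,
      MvPolynomial.map_C, ← MvPolynomial.algebraMap_eq, AlgEquiv.commutes]
    rfl
  rw [h2] at h
  exact h

/-- For `i` prime to `M` some automorphism of `ℂ` acts as `ζ ↦ ζⁱ` on `M`-th roots of unity. -/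
theorem exists_ringEquiv_pow {M i : ℕ} (hM : 0 < M) (hi : i.Coprime M) :
    ∃ τ : ℂ ≃+* ℂ, ∀ z : ℂ, z ^ M = 1 → τ z = z ^ i := by
  have hζ := Complex.isPrimitiveRoot_exp M hM.ne'
  set ζ : ℂ := Complex.exp (2 * Real.pi * Complex.I / M) with hζdef
  have hint : IsIntegral ℚ ζ := (hζ.isIntegral hM).tower_top
  let x : algebraicClosure ℚ ℂ := ⟨ζ, hint⟩
  have hx : IsPrimitiveRoot x M := IsPrimitiveRoot.coe_submonoidClass_iff.mp hζ
  have hc : IsAlgClosure ℚ (algebraicClosure ℚ ℂ) := algebraicClosure.isAlgClosure ℚ ℂ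
  have : Normal ℚ (algebraicClosure ℚ ℂ) := @IsAlgClosure.normal ℚ _ _ _ _ hc
  have hev : (Polynomial.aeval (x ^ i)) (minpoly ℚ x) = 0 := by
    rw [← Polynomial.cyclotomic_eq_minpoly_rat hx hM]
    rw [Polynomial.aeval_def, Polynomial.eval₂_eq_eval_map, Polynomial.map_cyclotomic]
    exact (hx.pow_of_coprime i hi).isRoot_cyclotomic hM
  obtain ⟨σ, hσ⟩ := minpoly.exists_algEquiv_of_root' (K := ℚ)
    (Algebra.IsAlgebraic.isAlgebraic x) hev
  obtain ⟨E, hE⟩ := exists_ringEquiv_extends (L := ℂ) σ.toRingEquiv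
  refine ⟨E, fun z hz ↦ ?_⟩
  have : NeZero M := ⟨hM.ne'⟩
  obtain ⟨j, -, rfl⟩ := hζ.eq_pow_of_pow_eq_one hz
  have h1 : E ζ = ζ ^ i := by
    have := hE x
    rw [show σ.toRingEquiv x = x ^ i from hσ] at this
    simpa [x] using this
  rw [map_pow, h1, ← pow_mul, ← pow_mul, mul_comm]

end Fermat.Agent.DeligneSerre
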