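import Mathlib.Analysis.Fourier.AddCircle
import Mathlib.NumberTheory.ModularForms.Bounds
import Fermat.Prelude.Def_FLTPrelim_Modularity

/-!
# The mean square bound for the coefficients of a weight one cusp form

`∑_{n < M} |a_n|² = O(M)`, from Parseval on a horizontal segment and `|f| y^{1/2} = O(1)`.
-/

set_option autoImplicit false

noncomputable section

open UpperHalfPlane Complex MeasureTheory

namespace Fermat.Agent.DeligneSerre

variable {Γ : Subgroup (GL (Fin 2) ℝ)} [Γ.IsArithmetic]

/-- `∑_{n < M} |a_n|² ≤ C M` for a cusp form of weight one. -/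
theorem exists_sum_norm_sq_qCoeff_le (hΓ : (1 : ℝ) ∈ Γ.strictPeriods) (f : CuspForm Γ 1) :
    ∃ C : ℝ, 0 ≤ C ∧
      ∀ M : ℕ, ∑ n ∈ Finset.range M, ‖ModularFormClass.qCoeff f n‖ ^ 2 ≤ C * M := by
  obtain ⟨C, hC⟩ := CuspFormClass.exists_bound f
  refine ⟨Real.exp (4 * Real.pi) * C ^ 2, by positivity, fun M ↦ ?_⟩
  rcases Nat.eq_zero_or_pos M with rfl | hM
  · simp
  set y : ℝ := 1 / M with hy
  have hy0 : 0 < y := by positivity
  let g : ℝ → ℂ := fun x ↦ f ⟨x + y * Complex.I, by simpa using hy0⟩
  have hgb : ∀ x, ‖g x‖ ^ 2 ≤ C ^ 2 / y := fun x ↦ by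
    have h := hC ⟨x + y * Complex.I, by simpa using hy0⟩
    have e : ((⟨x + y * Complex.I, by simpa using hy0⟩ : ℍ)).im = y := by
      simp [← UpperHalfPlane.coe_im]
    rw [e] at h
    have h2 := pow_le_pow_left₀ (norm_nonneg _) h 2
    rw [div_pow, ← Real.rpow_mul_natCast hy0.le] at h2
    norm_num at h2
    simpa [g] using h2
  have hcont : Continuous g := by
    have : Continuous (⇑f) := (ModularFormClass.holo f).continuous
    fun_prop
  have hL2 : MemLp g 2 (volume.restrict (Set.Ioc (0 : ℝ) 1)) :=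
    MemLp.of_bound hcont.aestronglyMeasurable (Real.sqrt (C ^ 2 / y))
      (Filter.Eventually.of_forall fun x ↦ Real.le_sqrt_of_sq_le (hgb x))
  have hP := hasSum_sq_fourierCoeffOn zero_lt_one hL2
  have hcoef : ∀ n : ℕ, fourierCoeffOn zero_lt_one g (n : ℤ) =
      ModularFormClass.qCoeff f n * (Real.exp (-(2 * Real.pi * n * y)) : ℂ) := by
    intro n
    rw [ModularFormClass.qCoeff, ModularFormClass.qExpansion_coeff_eq_intervalIntegral f
      one_pos hΓ n hy0, fourierCoeffOn_eq_integral]
    simp only [sub_zero, div_one, ofReal_one, one_mul, one_smul]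
    rw [← intervalIntegral.integral_mul_const]
    refine intervalIntegral.integral_congr fun x _ ↦ ?_
    simp only [fourier_coe_apply, Function.Periodic.qParam, smul_eq_mul, g]
    rw [ofReal_exp, ← Complex.exp_nat_mul, one_div, ← Complex.exp_neg, mul_right_comm _ (f _),
      ← Complex.exp_add]
    congr 2
    push_cast
    ring_nf
    rw [I_sq]
    ring
  have hbessel : ∑ n ∈ Finset.range M, ‖fourierCoeffOn zero_lt_one g (n : ℤ)‖ ^ 2 ≤
      C ^ 2 / y := by
    have h1 := sum_le_hasSum ((Finset.range M).map ⟨fun n : ℕ ↦ (n : ℤ), fun _ _ h ↦ by simpa using h⟩)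
      (fun i _ ↦ by positivity) hP
    rw [Finset.sum_map] at h1
    refine h1.trans ?_
    simp only [sub_zero, inv_one, one_smul]
    calc ∫ x in (0:ℝ)..1, ‖g x‖ ^ 2 ≤ ∫ _x in (0:ℝ)..1, C ^ 2 / y :=
          intervalIntegral.integral_mono_on zero_le_one
            ((hcont.norm.pow 2).intervalIntegrable _ _) intervalIntegrable_const fun x _ ↦ hgb x
      _ = C ^ 2 / y := by simp
  calc ∑ n ∈ Finset.range M, ‖ModularFormClass.qCoeff f n‖ ^ 2
      ≤ ∑ n ∈ Finset.range M,
          Real.exp (4 * Real.pi) * ‖fourierCoeffOn zero_lt_one g (n : ℤ)‖ ^ 2 := by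
        refine Finset.sum_le_sum fun n hn ↦ ?_
        rw [hcoef, norm_mul, norm_real, Real.norm_of_nonneg (Real.exp_pos _).le, mul_pow,
          mul_left_comm, ← Real.exp_nat_mul, ← Real.exp_add]
        refine le_mul_of_one_le_right (by positivity) (Real.one_le_exp ?_)
        have hny : (n : ℝ) * y ≤ 1 := by
          rw [hy, mul_one_div, div_le_one (by positivity)]
          exact_mod_cast (Finset.mem_range.mp hn).le
        have := mul_le_mul_of_nonneg_left hny Real.pi_pos.le
        push_cast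
        linarith
    _ ≤ Real.exp (4 * Real.pi) * (C ^ 2 / y) := by
        rw [← Finset.mul_sum]
        exact mul_le_mul_of_nonneg_left hbessel (Real.exp_pos _).le
    _ = Real.exp (4 * Real.pi) * C ^ 2 * M := by rw [hy, div_div_eq_mul_div, div_one, mul_assoc]

end Fermat.Agent.DeligneSerre
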