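import Mathlib.Analysis.SpecialFunctions.Complex.LogBounds
import Mathlib.Analysis.SpecificLimits.Normed
import Mathlib.FieldTheory.IsAlgClosed.Basic
import Mathlib.Analysis.Complex.Polynomial.Basic
import Mathlib.Tactic.LinearCombination

/-!
# The local factor of the Rankin series of a weight one eigenform

If `h (r+2) = a h (r+1) - e h r`, `h 0 = 1`, `h 1 = a`, `|e| = 1`, then
`(∑ᵣ |h r|² Xʳ) (1 - |α|²X)(1 - |β|²X)|1 - αβ̄X|² = 1 - X²`, whence
`|a|² X + log (1 - X²) ≤ log (∑ᵣ |h r|² Xʳ)`.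
-/

set_option autoImplicit false

noncomputable section

open ComplexConjugate

namespace Fermat.Agent.DeligneSerre

/-- The product of two order two linear recurrences satisfies an order four recurrence. -/
lemma rec_mul_four {R : Type*} [CommRing R] (a e b d : R) (u v : ℕ → R)
    (hu : ∀ r, u (r + 2) = a * u (r + 1) - e * u r)
    (hv : ∀ r, v (r + 2) = b * v (r + 1) - d * v r) (r : ℕ) :
    u (r + 4) * v (r + 4) - a * b * (u (r + 3) * v (r + 3))
      + (a ^ 2 * d + b ^ 2 * e - 2 * e * d) * (u (r + 2) * v (r + 2))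
      - e * d * (a * b) * (u (r + 1) * v (r + 1)) + e ^ 2 * d ^ 2 * (u r * v r) = 0 := by
  rw [hu (r + 2), hv (r + 2), hu (r + 1), hv (r + 1), hu r, hv r]
  ring

/-- The generating function of the product of two order two recurrences. -/
lemma tsum_mul_quartic {a e b d : ℂ} {u v : ℕ → ℂ}
    (hu : ∀ r, u (r + 2) = a * u (r + 1) - e * u r) (hu0 : u 0 = 1) (hu1 : u 1 = a)
    (hv : ∀ r, v (r + 2) = b * v (r + 1) - d * v r) (hv0 : v 0 = 1) (hv1 : v 1 = b)
    {X : ℂ} (hs : Summable fun r ↦ u r * v r * X ^ r) :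
    (∑' r, u r * v r * X ^ r) *
        (1 - a * b * X + (a ^ 2 * d + b ^ 2 * e - 2 * e * d) * X ^ 2 - e * d * (a * b) * X ^ 3 +
          e ^ 2 * d ^ 2 * X ^ 4) = 1 - e * d * X ^ 2 := by
  set c : ℕ → ℂ := fun r ↦ u r * v r * X ^ r with hc
  have hsh : ∀ k, Summable fun r ↦ c (r + k) := fun k ↦ (summable_nat_add_iff k).mpr hs
  have h4 : ∑' r, (c (r + 4) - a * b * X * c (r + 3)
      + (a ^ 2 * d + b ^ 2 * e - 2 * e * d) * X ^ 2 * c (r + 2)
      - e * d * (a * b) * X ^ 3 * c (r + 1) + e ^ 2 * d ^ 2 * X ^ 4 * c r) = 0 := by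
    convert tsum_zero with r
    simp only [hc]
    linear_combination X ^ (r + 4) * rec_mul_four a e b d u v hu hv r
  rw [((((hsh 4).sub ((hsh 3).mul_left _)).add ((hsh 2).mul_left _)).sub
      ((hsh 1).mul_left _)).tsum_add (hs.mul_left _),
    (((hsh 4).sub ((hsh 3).mul_left _)).add ((hsh 2).mul_left _)).tsum_sub ((hsh 1).mul_left _),
    ((hsh 4).sub ((hsh 3).mul_left _)).tsum_add ((hsh 2).mul_left _),
    (hsh 4).tsum_sub ((hsh 3).mul_left _), tsum_mul_left, tsum_mul_left, tsum_mul_left,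
    tsum_mul_left] at h4
  have e4 := hs.sum_add_tsum_nat_add 4
  have e3 := hs.sum_add_tsum_nat_add 3
  have e2 := hs.sum_add_tsum_nat_add 2
  have e1 := hs.sum_add_tsum_nat_add 1
  have hu2 := hu 0
  have hu3 := hu 1
  have hv2 := hv 0
  have hv3 := hv 1
  simp only [Finset.sum_range_succ, Finset.sum_range_zero, zero_add, hc, hu0, hv0, hu1, hv1]
    at e1 e2 e3 e4 hu2 hu3 hv2 hv3
  rw [hu3, hv3, hu2, hv2] at e4
  rw [hu2, hv2] at e3
  simp only [hc] at h4
  linear_combination h4 - e4 + a * b * X * e3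
    - (a ^ 2 * d + b ^ 2 * e - 2 * e * d) * X ^ 2 * e2 + e * d * (a * b) * X ^ 3 * e1

/-- **The local Rankin inequality.** -/
theorem sq_norm_mul_add_log_le {a e : ℂ} {h : ℕ → ℂ} (he : ‖e‖ = 1)
    (hrec : ∀ r, h (r + 2) = a * h (r + 1) - e * h r) (h0 : h 0 = 1) (h1 : h 1 = a)
    {X : ℝ} (hX0 : 0 < X) (hX1 : X < 1) (hsum : Summable fun r ↦ ‖h r‖ ^ 2 * X ^ r) :
    ‖a‖ ^ 2 * X + Real.log (1 - X ^ 2) ≤ Real.log (∑' r, ‖h r‖ ^ 2 * X ^ r) := by
  -- roots of `T² - aT + e`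
  obtain ⟨w, hw⟩ := IsAlgClosed.exists_pow_nat_eq (a ^ 2 - 4 * e) two_pos
  set α := (a + w) / 2 with hα
  set β := (a - w) / 2 with hβ
  have hab : α + β = a := by rw [hα, hβ]; ring
  have hmul : α * β = e := by rw [hα, hβ]; linear_combination (-1 / 4 : ℂ) * hw
  set A := ‖α‖ ^ 2 with hA
  set B := ‖β‖ ^ 2 with hB
  set c := α * conj β with hcd
  have hAB : A * B = 1 := by rw [hA, hB, ← mul_pow, ← norm_mul, hmul, he, one_pow]
  have hA0 : 0 < A := lt_of_le_of_ne (by positivity) fun h ↦ by simp [← h] at hAB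
  have hB0 : 0 < B := lt_of_le_of_ne (by positivity) fun h ↦ by simp [← h] at hAB
  have hc : ‖c‖ = 1 := by rw [hcd, norm_mul, Complex.norm_conj, ← norm_mul, hmul, he]
  have hee : e * conj e = 1 := by rw [Complex.mul_conj', he]; norm_num
  -- the factorisation
  have key : ∀ Y : ℝ, 0 ≤ Y → Y ≤ X →
      (∑' r, ‖h r‖ ^ 2 * Y ^ r) * ((1 - A * Y) * (1 - B * Y) * ‖1 - c * Y‖ ^ 2) = 1 - Y ^ 2 := by
    intro Y hY0 hY
    have hsY : Summable fun r ↦ ‖h r‖ ^ 2 * Y ^ r :=
      hsum.of_nonneg_of_le (fun r ↦ by positivity) fun r ↦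
        mul_le_mul_of_nonneg_left (pow_le_pow_left₀ hY0 hY r) (by positivity)
    have hterm : ∀ r, ((‖h r‖ ^ 2 * Y ^ r : ℝ) : ℂ) = h r * conj (h r) * (Y : ℂ) ^ r := fun r ↦ by
      push_cast
      rw [Complex.mul_conj']
    have hsC : Summable fun r ↦ h r * conj (h r) * (Y : ℂ) ^ r :=
      (Complex.summable_ofReal.mpr hsY).congr hterm
    have hq := tsum_mul_quartic (v := fun r ↦ conj (h r)) (b := conj a) (d := conj e) hrec h0 h1
      (fun r ↦ by simp [hrec r]) (by simp [h0]) (by simp [h1]) hsC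
    apply Complex.ofReal_injective
    push_cast
    rw [tsum_congr fun r ↦ (show ((‖h r‖ : ℂ) ^ 2 * (Y : ℂ) ^ r) = h r * conj (h r) * (Y : ℂ) ^ r by
      rw [Complex.mul_conj']), hA, hB, Complex.ofReal_pow, Complex.ofReal_pow]
    simp only [← Complex.mul_conj']
    have h2 : α * β * conj α * conj β = 1 := by
      rw [mul_assoc (α * β), ← map_mul, hmul, hee]
    rw [← hab, ← hmul] at hq
    simp only [hcd, map_sub, map_mul, map_add, map_one, Complex.conj_ofReal,
      Complex.conj_conj] at hq ⊢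
    linear_combination hq - (Y : ℂ) ^ 2 * h2
  -- `|α|² X < 1`, `|β|² X < 1`
  have hlt : ∀ D : ℝ, 0 < D → (D = A ∨ D = B) → D * X < 1 := by
    intro D hD hDAB
    by_contra hcon
    have hle : D⁻¹ ≤ X := by
      rw [inv_le_iff_one_le_mul₀ hD]; linarith [not_lt.mp hcon]
    have hk := key D⁻¹ (inv_nonneg.mpr hD.le) hle
    have hz : (1 - A * D⁻¹) * (1 - B * D⁻¹) = 0 := by
      rcases hDAB with rfl | rfl
      · rw [mul_inv_cancel₀ hD.ne', sub_self, zero_mul]
      · rw [mul_inv_cancel₀ hD.ne', sub_self, mul_zero]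
    rw [hz, zero_mul, mul_zero] at hk
    have : D⁻¹ ^ 2 < 1 := pow_lt_one₀ (inv_nonneg.mpr hD.le) (lt_of_le_of_lt hle hX1) two_ne_zero
    linarith
  have hAX := hlt A hA0 (Or.inl rfl)
  have hBX := hlt B hB0 (Or.inr rfl)
  have hcX : ‖c * (X : ℂ)‖ < 1 := by
    simpa [norm_mul, hc, abs_of_pos hX0] using hX1
  have h1A : 0 < 1 - A * X := by linarith
  have h1B : 0 < 1 - B * X := by linarith
  have h1c : 0 < ‖1 - c * (X : ℂ)‖ := norm_pos_iff.mpr fun h ↦ by
    rw [sub_eq_zero] at h; simp [← h] at hcX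
  have h1X : 0 < 1 - X ^ 2 := by nlinarith
  have hS := key X hX0.le le_rfl
  set S := ∑' r, ‖h r‖ ^ 2 * X ^ r
  have hS' : S = (1 - X ^ 2) / ((1 - A * X) * (1 - B * X) * ‖1 - c * (X : ℂ)‖ ^ 2) := by
    rw [eq_div_iff (by positivity), hS]
  rw [hS', Real.log_div h1X.ne' (by positivity), Real.log_mul (by positivity) (by positivity),
    Real.log_mul h1A.ne' h1B.ne', Real.log_pow]
  -- the series for the logarithm
  have nA : ‖((A * X : ℝ) : ℂ)‖ < 1 := by
    rw [Complex.norm_real, Real.norm_of_nonneg (by positivity)]; exact hAX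
  have nB : ‖((B * X : ℝ) : ℂ)‖ < 1 := by
    rw [Complex.norm_real, Real.norm_of_nonneg (by positivity)]; exact hBX
  have hser := Complex.hasSum_re ((((Complex.hasSum_taylorSeries_neg_log nA).add
    (Complex.hasSum_taylorSeries_neg_log nB)).add (Complex.hasSum_taylorSeries_neg_log hcX)).add
    (Complex.hasSum_taylorSeries_neg_log (z := conj (c * (X : ℂ))) (by rwa [Complex.norm_conj])))
  have hterm : ∀ n : ℕ, (((A * X : ℝ) : ℂ) ^ n / n + ((B * X : ℝ) : ℂ) ^ n / n +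
      (c * (X : ℂ)) ^ n / n + conj (c * (X : ℂ)) ^ n / n).re = X ^ n * ‖α ^ n + β ^ n‖ ^ 2 / n := by
    intro n
    rw [← Complex.ofReal_re (X ^ n * ‖α ^ n + β ^ n‖ ^ 2 / n)]
    congr 1
    push_cast
    simp only [hA, hB, hcd, Complex.ofReal_pow, ← Complex.mul_conj', map_add, map_mul, map_pow,
      Complex.conj_ofReal, Complex.conj_conj]
    ring_nf
  simp only [hterm] at hser
  have h1le := le_hasSum hser 1 fun n _ ↦ by positivity
  simp only [pow_one, Nat.cast_one, div_one, Complex.add_re, Complex.neg_re, Complex.log_re,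
    hab] at h1le
  rw [show ((1 : ℂ) - ((A * X : ℝ) : ℂ)) = ((1 - A * X : ℝ) : ℂ) by push_cast; ring,
    show ((1 : ℂ) - ((B * X : ℝ) : ℂ)) = ((1 - B * X : ℝ) : ℂ) by push_cast; ring,
    show (1 : ℂ) - conj (c * (X : ℂ)) = conj (1 - c * (X : ℂ)) by simp,
    Complex.norm_conj, Complex.norm_real, Complex.norm_real, Real.norm_of_nonneg h1A.le,
    Real.norm_of_nonneg h1B.le] at h1le
  push_cast
  linarith

end Fermat.Agent.DeligneSerre
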